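import Fermat.Agent.GAL.ESR.Gauss
import Fermat.Agent.GAL.KLC.Val

/-!
# TOR / GBB : the formal half of the toric step of GOAL B

Pure `q`-series computation with the Gauss reduction `GR.HasRed A`.
`S = galS σ` (`σ` a Frobenius lift at `A ∣ q`), `U = NmL Qb q`, `V = qExpand Qb q`.
For `f, f'` (think `f' = w f`) with nonzero reductions up to constants, put
`g₁ = S f / U f`, `g₁' = S f' * f / (V f' * V (U f))` (`= w g₁`),
`g₂ = S (U g₁) / g₁ ^ q`, `g₂' = S (V g₁' * V (U g₁) / g₁) / g₁' ^ q` (`= w g₂`).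
Then ONE constant `b` normalises both: `b g₂ ≡ 1` and `b g₂' ≡ 1`.
-/

set_option autoImplicit false

open ModularCurve

noncomputable section

namespace Fermat.Agent.TOR.GBB

open Fermat.Agent.GAL Fermat.Agent.GR Fermat.Agent.GAL.KLC

variable {A : ValuationSubring Qb}

/-! ## the decomposition group preserves the valuation of constants -/

theorem decomp_mem_iff {σ : GQ} (hσ : σ ∈ A.decompositionSubgroup ℚ) {x : Qb} :
    σ x ∈ A ↔ x ∈ A := by
  constructor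
  · intro h
    have := (decompHom σ⁻¹ (inv_mem hσ) ⟨σ x, h⟩).2
    rw [coe_decompHom] at this
    simpa using this
  · intro h
    exact (decompHom σ hσ ⟨x, h⟩).2

theorem mul_not_mem {x y : Qb} (hx : x ∉ A) (hy : y ∉ A) : x * y ∉ A := by
  intro h
  have hy' : y⁻¹ ∈ A := (A.mem_or_inv_mem y).resolve_left hy
  have hy0 : y ≠ 0 := by rintro rfl; exact hy A.zero_mem
  apply hx
  have := A.mul_mem _ _ h hy'
  rwa [mul_assoc, mul_inv_cancel₀ hy0, mul_one] at this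

theorem exists_pow_fix (σ : GQ) (d : Qb) : ∃ r : ℕ, 0 < r ∧ (σ ^ r) d = d := by
  classical
  have hd : IsIntegral ℚ d := (AlgebraicClosure.isAlgebraic ℚ).isIntegral.isIntegral d
  have hfin : ((minpoly ℚ d).rootSet Qb).Finite := Polynomial.rootSet_finite _ _
  have hmem : ∀ i : ℕ, (σ ^ i) d ∈ (minpoly ℚ d).rootSet Qb := by
    intro i
    rw [Polynomial.mem_rootSet]
    refine ⟨minpoly.ne_zero hd, ?_⟩
    have := Polynomial.aeval_algHom_apply ((σ ^ i : GQ) : Qb →ₐ[ℚ] Qb) d (minpoly ℚ d)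
    rw [minpoly.aeval, map_zero] at this
    exact this
  have := hfin.to_subtype
  obtain ⟨i, j, hij, h⟩ := Finite.exists_ne_map_eq_of_infinite
    (fun i : ℕ => (⟨(σ ^ i) d, hmem i⟩ : (minpoly ℚ d).rootSet Qb))
  have h' : (σ ^ i) d = (σ ^ j) d := congrArg Subtype.val h
  wlog hlt : i < j generalizing i j
  · exact this j i hij.symm h.symm h'.symm (lt_of_le_of_ne (not_lt.mp hlt) hij.symm)
  refine ⟨j - i, by omega, ?_⟩
  have e : j = i + (j - i) := by omega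
  rw [e, pow_add, AlgEquiv.mul_apply] at h'
  exact ((σ ^ i).injective h').symm

theorem decomp_div_mem {σ : GQ} (hσ : σ ∈ A.decompositionSubgroup ℚ) {d : Qb} (hd : d ≠ 0) :
    σ d / d ∈ A := by
  by_contra hne
  have key : ∀ r : ℕ, (σ ^ (r + 1)) d / d ∉ A := by
    intro r
    induction r with
    | zero => simpa using hne
    | succ r ih =>
      have h1 : σ ((σ ^ (r + 1)) d / d) ∉ A := fun h => ih ((decomp_mem_iff hσ).1 h)
      have h2 := mul_not_mem h1 hne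
      have hσd : σ d ≠ 0 := (map_ne_zero σ).mpr hd
      have e : σ ((σ ^ (r + 1)) d / d) * (σ d / d) = (σ ^ (r + 1 + 1)) d / d := by
        rw [map_div₀, pow_succ' σ (r + 1), AlgEquiv.mul_apply]
        field_simp
      rwa [e] at h2
  obtain ⟨r, hr, hfix⟩ := exists_pow_fix σ d
  obtain ⟨s, rfl⟩ : ∃ s, r = s + 1 := ⟨r - 1, by omega⟩
  apply key s
  rw [hfix, div_self hd]
  exact A.one_mem

/-- `σ e / e ^ q ≡ 1` for a unit `e` of `A`. -/
theorem hasRed_frob_unit {q : ℕ} [ExpChar (kA A) q] {σ : GQ} (hσ : A.IsFrobeniusAt σ q) {e : Qb}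
    (he : e ∈ A) (he' : e⁻¹ ∈ A) (he0 : e ≠ 0) :
    HasRed A (HahnSeries.C (σ e / e ^ q)) 1 := by
  have h1 := hasRed_C A ⟨e, he⟩
  have hu : IsUnit (⟨e, he⟩ : A) := by
    refine IsUnit.of_mul_eq_one (⟨e⁻¹, he'⟩ : A) (Subtype.ext ?_)
    exact mul_inv_cancel₀ he0
  have hne : (HahnSeries.C (IsLocalRing.residue A ⟨e, he⟩) : LaurentSeries (kA A)) ≠ 0 := by
    intro h
    have h0 : IsLocalRing.residue A ⟨e, he⟩ = 0 := by
      apply HahnSeries.C_injective (Γ := ℤ)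
      rw [h, map_zero]
    exact (hu.map (IsLocalRing.residue A)).ne_zero h0
  have h2 := h1.map_frobenius hσ
  have h3 := h2.div (h1.pow q) (pow_ne_zero q hne)
  have e1 : coeffMap ((σ : Qb ≃ₐ[ℚ] Qb) : Qb →+* Qb) (HahnSeries.C e) = HahnSeries.C (σ e) :=
    galS_C σ e
  have e2 : coeffMap (frobenius (kA A) q) (HahnSeries.C (IsLocalRing.residue A ⟨e, he⟩)) =
      HahnSeries.C (IsLocalRing.residue A ⟨e, he⟩) ^ q := by
    rw [← map_pow]
    exact coeffMap_single _ _ _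
  simp only at h3
  rw [e1, e2, div_self (pow_ne_zero q hne), ← map_pow, ← map_div₀] at h3
  exact h3

/-! ## `HasRed` calculus for `U = NmL` and `V = qExpand` -/

section Calc

variable {q : ℕ} [NeZero q]

theorem NmL_C (a : Qb) : NmL Qb q (HahnSeries.C a) = HahnSeries.C (a ^ q) := by
  have h1 : qExpand Qb q (HahnSeries.C a) = HahnSeries.C a := qExpand_C q a
  conv_lhs => rw [← h1]
  rw [NmL_qExpand, map_pow]

theorem NmL_C_mul (a : Qb) (x : LaurentSeries Qb) :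
    NmL Qb q (HahnSeries.C a * x) = HahnSeries.C (a ^ q) * NmL Qb q x := by
  rw [map_mul, NmL_C]

theorem qExpand_C_mul (a : Qb) (x : LaurentSeries Qb) :
    qExpand Qb q (HahnSeries.C a * x) = HahnSeries.C a * qExpand Qb q x := by
  rw [map_mul, qExpand_C]

theorem galS_C_mul (σ : GQ) (a : Qb) (x : LaurentSeries Qb) :
    galS σ (HahnSeries.C a * x) = HahnSeries.C (σ a) * galS σ x := by
  rw [map_mul, galS_C]

theorem NmL_ne_zero {x : LaurentSeries Qb} (hx : x ≠ 0) : NmL Qb q x ≠ 0 := by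
  intro h
  have h1 : NmL Qb q x * NmL Qb q x⁻¹ = 1 := by rw [← map_mul, mul_inv_cancel₀ hx, map_one]
  rw [h, zero_mul] at h1
  exact zero_ne_one h1

theorem NmL_div (x : LaurentSeries Qb) {y : LaurentSeries Qb} (hy : y ≠ 0) :
    NmL Qb q (x / y) = NmL Qb q x / NmL Qb q y := by
  rw [eq_div_iff (NmL_ne_zero hy), ← map_mul, div_mul_cancel₀ _ hy]

theorem hasRed_qExpand {x : LaurentSeries Qb} {z : LaurentSeries (kA A)} (h : HasRed A x z) :
    HasRed A (qExpand Qb q x) (qExpand (kA A) q z) :=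
  h.map (qExpand A q) (qExpand Qb q) (qExpand (kA A) q) (map_mul _) (map_mul _)
    (fun y => GR.coeffMap_qExpand _ q y) (fun y => GR.coeffMap_qExpand _ q y)
    (fun w hw h0 => hw (qExpand_injective q (by rw [h0, map_zero])))

theorem hasRed_NmL (hq : q.Prime) (hA : A.LiesOverPrime q) [ExpChar (kA A) q]
    {x : LaurentSeries Qb} {z : LaurentSeries (kA A)} (h : HasRed A x z) :
    HasRed A (NmL Qb q x) (coeffMap (frobenius (kA A) q) z) := by
  have := charP_residueField hq hA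
  have := Fact.mk hq
  have hN : ∀ w : LaurentSeries (kA A), NmL (kA A) q w = coeffMap (frobenius (kA A) q) w :=
    fun w => NmL_charP q w
  have := h.map (NmL A q) (NmL Qb q) (NmL (kA A) q) (map_mul _) (map_mul _)
    (fun y => NmL_coeffMap _ q y) (fun y => NmL_coeffMap _ q y)
    (fun w hw => by
      rw [hN]
      exact coeffMap_ne_zero_of_injective (RingHom.injective _) hw)
  rwa [hN] at this

omit [NeZero q] in
theorem hasRed_galS [ExpChar (kA A) q] {σ : GQ} (hσ : A.IsFrobeniusAt σ q)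
    {x : LaurentSeries Qb} {z : LaurentSeries (kA A)} (h : HasRed A x z) :
    HasRed A (galS σ x) (coeffMap (frobenius (kA A) q) z) :=
  h.map_frobenius hσ

omit [NeZero q] in
theorem frob_ne_zero [ExpChar (kA A) q] {z : LaurentSeries (kA A)} (hz : z ≠ 0) :
    coeffMap (frobenius (kA A) q) z ≠ 0 :=
  coeffMap_ne_zero_of_injective (RingHom.injective _) hz

theorem qExpand_ne_zero' {R : Type*} [CommRing R] {z : LaurentSeries R} (hz : z ≠ 0) :
    qExpand R q z ≠ 0 :=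
  fun h0 => hz (qExpand_injective q (by rw [h0, map_zero]))

/-- `Fr (V z) = z ^ q`. -/
theorem frob_qExpand [ExpChar (kA A) q] (z : LaurentSeries (kA A)) :
    coeffMap (frobenius (kA A) q) (qExpand (kA A) q z) = z ^ q := by
  rw [GR.coeffMap_qExpand, pow_char_eq_qExpand q z]

/-- `V (Fr z) = z ^ q`. -/
theorem qExpand_frob [ExpChar (kA A) q] (z : LaurentSeries (kA A)) :
    qExpand (kA A) q (coeffMap (frobenius (kA A) q) z) = z ^ q :=
  (pow_char_eq_qExpand q z).symm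

end Calc

/-! ## the four series -/

section Defs

variable (σ : GQ) (q : ℕ) [NeZero q]

/-- `g₁ = σ f / U f`. -/
def G1 (f : LaurentSeries Qb) : LaurentSeries Qb := galS σ f / NmL Qb q f

/-- `g₁' = σ f' · f / (V f' · V (U f))`  (`= w g₁` if `f' = w f`). -/
def G1' (f f' : LaurentSeries Qb) : LaurentSeries Qb :=
  galS σ f' * f / (qExpand Qb q f' * qExpand Qb q (NmL Qb q f))

/-- `g₂ = σ (U g) / g ^ q`. -/
def G2 (g : LaurentSeries Qb) : LaurentSeries Qb := galS σ (NmL Qb q g) / g ^ q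

/-- `g₂' = σ (V g' · V (U g) / g) / g' ^ q`  (`= w g₂` if `g' = w g`). -/
def G2' (g g' : LaurentSeries Qb) : LaurentSeries Qb :=
  galS σ (qExpand Qb q g' * qExpand Qb q (NmL Qb q g) / g) / g' ^ q

end Defs

section Steps

variable {q : ℕ} [NeZero q] [ExpChar (kA A) q] {σ : GQ}

theorem stepA1 (hq : q.Prime) (hA : A.LiesOverPrime q) (hσ : A.IsFrobeniusAt σ q)
    {f : LaurentSeries Qb} {c : Qb} {φ : LaurentSeries (kA A)}
    (h : HasRed A (HahnSeries.C c * f) φ) (hφ : φ ≠ 0) :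
    HasRed A (HahnSeries.C (σ c / c ^ q) * G1 σ q f) 1 := by
  have h1 := hasRed_galS hσ h
  have h2 := hasRed_NmL hq hA h
  have h3 := h1.div h2 (frob_ne_zero hφ)
  rw [div_self (frob_ne_zero hφ), galS_C_mul, NmL_C_mul, mul_div_mul_comm, ← map_div₀] at h3
  exact h3

theorem stepA2 (hq : q.Prime) (hA : A.LiesOverPrime q) (hσ : A.IsFrobeniusAt σ q)
    {f f' : LaurentSeries Qb} {c₁ c₂ : Qb} {φ₁ φ₂ : LaurentSeries (kA A)}
    (h₁ : HasRed A (HahnSeries.C c₁ * f) φ₁) (hφ₁ : φ₁ ≠ 0)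
    (h₂ : HasRed A (HahnSeries.C c₂ * f') φ₂) (hφ₂ : φ₂ ≠ 0) :
    HasRed A (HahnSeries.C (σ c₂ * c₁ / (c₂ * c₁ ^ q)) * G1' σ q f f')
      (coeffMap (frobenius (kA A) q) φ₂ * φ₁ / (qExpand (kA A) q φ₂ * φ₁ ^ q)) := by
  have a1 := hasRed_galS hσ h₂
  have a2 := hasRed_qExpand (q := q) h₂
  have a3 := hasRed_qExpand (q := q) (hasRed_NmL hq hA h₁)
  rw [qExpand_frob] at a3
  have a4 := (a1.mul h₁).div (a2.mul a3) (mul_ne_zero (qExpand_ne_zero' hφ₂) (pow_ne_zero q hφ₁))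
  convert a4 using 1
  rw [galS_C_mul, NmL_C_mul, qExpand_C_mul, qExpand_C_mul, G1']
  simp only [map_div₀, map_mul]
  ring

theorem stepB1 (hq : q.Prime) (hA : A.LiesOverPrime q) (hσ : A.IsFrobeniusAt σ q)
    {g : LaurentSeries Qb} {a : Qb} (h : HasRed A (HahnSeries.C a * g) 1) :
    HasRed A (HahnSeries.C (σ (a ^ q) / a ^ q) * G2 σ q g) 1 := by
  have h1 := hasRed_galS hσ (hasRed_NmL hq hA h)
  have h2 := h.pow q
  have h3 := h1.div h2 (pow_ne_zero q one_ne_zero)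
  rw [map_one, map_one, one_pow, div_one] at h3
  convert h3 using 1
  rw [NmL_C_mul, galS_C_mul, G2, mul_pow]
  simp only [map_div₀, map_pow]
  ring

theorem stepB2 (hq : q.Prime) (hA : A.LiesOverPrime q) (hσ : A.IsFrobeniusAt σ q)
    {g g' : LaurentSeries Qb} {a₁ a₂ : Qb} {ψ : LaurentSeries (kA A)}
    (h₁ : HasRed A (HahnSeries.C a₁ * g) 1) (h₂ : HasRed A (HahnSeries.C a₂ * g') ψ)
    (hψ : ψ ≠ 0) :
    HasRed A (HahnSeries.C (σ (a₂ * a₁ ^ q / a₁) / a₂ ^ q) * G2' σ q g g') 1 := by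
  have b1 := hasRed_qExpand (q := q) h₂
  have b2 := hasRed_qExpand (q := q) (hasRed_NmL hq hA h₁)
  rw [map_one, map_one] at b2
  have b3 := (b1.mul b2).div h₁ one_ne_zero
  rw [mul_one, div_one] at b3
  have b4 := hasRed_galS hσ b3
  rw [frob_qExpand] at b4
  have b5 := b4.div (h₂.pow q) (pow_ne_zero q hψ)
  rw [div_self (pow_ne_zero q hψ)] at b5
  convert b5 using 1
  have e : qExpand Qb q (HahnSeries.C a₂ * g') * qExpand Qb q (NmL Qb q (HahnSeries.C a₁ * g)) /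
      (HahnSeries.C a₁ * g) = HahnSeries.C (a₂ * a₁ ^ q / a₁) *
        (qExpand Qb q g' * qExpand Qb q (NmL Qb q g) / g) := by
    rw [NmL_C_mul, qExpand_C_mul, qExpand_C_mul]
    simp only [map_div₀, map_mul]
    ring
  rw [e, galS_C_mul, G2', mul_pow]
  simp only [map_div₀, map_pow]
  ring

end Steps

/-- **the formal toric step**: ONE constant normalises `g₂` and `g₂'`. -/
theorem toric_formal {q : ℕ} [NeZero q] (hq : q.Prime) (hA : A.LiesOverPrime q) {σ : GQ}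
    (hσ : A.IsFrobeniusAt σ q) {f f' : LaurentSeries Qb} {c₁ c₂ : Qb} (hc₁ : c₁ ≠ 0) (hc₂ : c₂ ≠ 0)
    {φ₁ φ₂ : LaurentSeries (kA A)}
    (h₁ : HasRed A (HahnSeries.C c₁ * f) φ₁) (hφ₁ : φ₁ ≠ 0)
    (h₂ : HasRed A (HahnSeries.C c₂ * f') φ₂) (hφ₂ : φ₂ ≠ 0) :
    ∃ b : Qb, b ≠ 0 ∧ HasRed A (HahnSeries.C b * G2 σ q (G1 σ q f)) 1 ∧
      HasRed A (HahnSeries.C b * G2' σ q (G1 σ q f) (G1' σ q f f')) 1 := by
  have := charP_residueField hq hA
  have : ExpChar (kA A) q := ExpChar.prime hq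
  have hd := hσ.mem_decompositionSubgroup
  have s1 : σ c₁ ≠ 0 := (map_ne_zero σ).mpr hc₁
  have s2 : σ c₂ ≠ 0 := (map_ne_zero σ).mpr hc₂
  set a₁ : Qb := σ c₁ / c₁ ^ q with ha₁
  set a₂ : Qb := σ c₂ * c₁ / (c₂ * c₁ ^ q) with ha₂
  have ha₁0 : a₁ ≠ 0 := div_ne_zero s1 (pow_ne_zero q hc₁)
  have ha₂0 : a₂ ≠ 0 := div_ne_zero (mul_ne_zero s2 hc₁) (mul_ne_zero hc₂ (pow_ne_zero q hc₁))
  have A1 : HasRed A (HahnSeries.C a₁ * G1 σ q f) 1 := stepA1 hq hA hσ h₁ hφ₁
  have A2 : HasRed A (HahnSeries.C a₂ * G1' σ q f f') _ := stepA2 hq hA hσ h₁ hφ₁ h₂ hφ₂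
  set d : Qb := c₂ / c₁ with hdd
  have hd0 : d ≠ 0 := div_ne_zero hc₂ hc₁
  have he : a₂ / a₁ = σ d / d := by
    rw [ha₁, ha₂, hdd, map_div₀]
    field_simp
  clear_value a₁ a₂
  have hψ : coeffMap (frobenius (kA A) q) φ₂ * φ₁ / (qExpand (kA A) q φ₂ * φ₁ ^ q) ≠ 0 :=
    div_ne_zero (mul_ne_zero (frob_ne_zero hφ₂) hφ₁)
      (mul_ne_zero (qExpand_ne_zero' hφ₂) (pow_ne_zero q hφ₁))
  have B1 := stepB1 hq hA hσ A1
  have B2 := stepB2 hq hA hσ A1 A2 hψ
  have t1 : σ a₁ ≠ 0 := (map_ne_zero σ).mpr ha₁0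
  have t2 : σ a₂ ≠ 0 := (map_ne_zero σ).mpr ha₂0
  refine ⟨σ (a₁ ^ q) / a₁ ^ q, ?_, B1, ?_⟩
  · rw [map_pow]
    exact div_ne_zero (pow_ne_zero q t1) (pow_ne_zero q ha₁0)
  · -- the unit `e = a₂ / a₁ = σ d / d`
    have he1 : a₂ / a₁ ∈ A := by rw [he]; exact decomp_div_mem hd hd0
    have he2 : (a₂ / a₁)⁻¹ ∈ A := by
      have := decomp_div_mem (A := A) hd (inv_ne_zero hd0)
      rw [he]
      rw [map_inv₀] at this
      convert this using 1
      field_simp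
    have hu := hasRed_frob_unit hσ he1 he2 (div_ne_zero ha₂0 ha₁0)
    have hu' := hu.inv one_ne_zero
    rw [inv_one] at hu'
    have := hu'.mul B2
    rw [one_mul] at this
    convert this using 1
    rw [← mul_assoc, ← map_inv₀, ← map_mul]
    congr 2
    simp only [map_div₀, map_mul, map_pow, div_pow]
    field_simp

end Fermat.Agent.TOR.GBB
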