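import Fermat.Agent.TOR.GB.Norm
import Fermat.Agent.TOR.T1.Places

/-!
# TOR / GBB (3) : `U_q`, `w_q` and the Galois action preserve "all orders divisible by `n`"
-/

set_option autoImplicit false

open ModularCurve AlgebraicCurve

noncomputable section

namespace Fermat.Agent.TOR.GBB

open Fermat.Agent.S24 Fermat.Agent.S28 Fermat.Agent.GR.HeckeField Fermat.Agent.GAL
open Fermat.Agent.S24.FF

variable {M₁ q : ℕ} [NeZero M₁] [NeZero q]

/-- transport of a place by a semilinear automorphism. -/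
theorem ordNm_exists_place_comp_semi {K F : Type*} [Field K] [Field F] [Algebra K F]
    (s : F ≃+* F) (sK : K ≃+* K)
    (h : ∀ a, s (algebraMap K F a) = algebraMap K F (sK a)) (P : Place K F) :
    ∃ P' : Place K F, ∀ z, P'.ord z = P.ord (s z) := by
  obtain ⟨π, hπ0, hπ⟩ := GAL.FF.exists_ne_zero_ord_eq P 1
  obtain ⟨P', hP'⟩ := S18.exists_place_of_ordFun (K := K) (F := F) (fun z => P.ord (s z))
    (fun a b ha hb => by
      show P.ord (s (a * b)) = _
      rw [map_mul]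
      exact P.ord_mul ((map_ne_zero s).2 ha) ((map_ne_zero s).2 hb))
    (fun a b _ _ hab => by
      show _ ≤ P.ord (s (a + b))
      rw [map_add]
      exact min_ord_le_ord_add P (by rw [← map_add]; exact (map_ne_zero s).2 hab))
    (fun a _ => by
      show P.ord (s (algebraMap K F a)) = 0
      rw [h]
      exact ord_algebraMap P _)
    (s.symm π) ((map_ne_zero s.symm).2 hπ0)
    (by show P.ord (s (s.symm π)) = 1; rw [s.apply_symm_apply]; exact hπ)
  refine ⟨P', fun z => ?_⟩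
  by_cases hz : z = 0
  · subst hz
    rw [map_zero, Place.ord_zero, Place.ord_zero]
  · exact hP' z hz

theorem dvd_ord_wq (n : ℤ) (z : FN (M₁ * q))
    (hz : ∀ P : Place Kb (FN (M₁ * q)), n ∣ P.ord z) (P : Place Kb (FN (M₁ * q))) :
    n ∣ P.ord (GB.wq M₁ q z) := by
  obtain ⟨P', hP'⟩ := T1.exists_place_comp (GB.wq M₁ q) P
  rw [← hP']
  exact hz P'

theorem dvd_ord_galF (N : ℕ) (σ : GAL.GQ) (n : ℤ) (z : FN N)
    (hz : ∀ P : Place Kb (FN N), n ∣ P.ord z) (P : Place Kb (FN N)) :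
    n ∣ P.ord (GB.galF N σ z) := by
  obtain ⟨P', hP'⟩ := ordNm_exists_place_comp_semi (GB.galF N σ) σ.toRingEquiv
    (fun a => arithmeticRingAut_algebraMap (modularFunctionFieldFull N) σ a) P
  rw [← hP']
  exact hz P'

attribute [local instance] algFN

theorem nmF_eq (hq : q.Prime) (hqM : ¬ q ∣ M₁) (z : FN (M₁ * q)) (hz : z ≠ 0) :
    GB.nmF hq hqM z = alp M₁ q (Algebra.norm (FN M₁) (GB.wq M₁ q z)) * (GB.wq M₁ q z)⁻¹ := by
  have hw : GB.wq M₁ q z ≠ 0 := (map_ne_zero (GB.wq M₁ q)).2 hz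
  rw [eq_mul_inv_iff_mul_eq₀ hw]
  apply Subtype.ext
  have h1 := GB.coe_norm_eq hq hqM (GB.wq M₁ q z)
  rw [GB.wq_wq hq hqM] at h1
  have e1 : ((alp M₁ q (Algebra.norm (FN M₁) (GB.wq M₁ q z)) : FN (M₁ * q)) : LaurentSeries Kb) =
      ((Algebra.norm (FN M₁) (GB.wq M₁ q z) : FN M₁) : LaurentSeries Kb) := coe_heckeAlphaBar M₁ q _
  rw [e1, h1]
  show NmL Qb q (z : LaurentSeries Qb) * ((GB.wq M₁ q z : FN (M₁ * q)) : LaurentSeries Qb) = _
  exact mul_comm _ _

theorem dvd_ord_nmF (hq : q.Prime) (hqM : ¬ q ∣ M₁) (n : ℤ) (z : FN (M₁ * q))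
    (hz : ∀ P : Place Kb (FN (M₁ * q)), n ∣ P.ord z) (P : Place Kb (FN (M₁ * q))) :
    n ∣ P.ord (GB.nmF hq hqM z) := by
  have := finiteDimensional_FN_mul M₁ q hq hqM
  rcases eq_or_ne z 0 with rfl | hz0
  · have h0 : GB.nmF hq hqM (0 : FN (M₁ * q)) = 0 := by
      apply Subtype.ext
      show NmL Qb q (0 : LaurentSeries Qb) = 0
      have h1 := NmL_qExpand (R := Qb) q (0 : LaurentSeries Qb)
      rw [map_zero, zero_pow (NeZero.ne q)] at h1
      exact h1
    rw [h0]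
    simp
  · have hw : GB.wq M₁ q z ≠ 0 := (map_ne_zero (GB.wq M₁ q)).2 hz0
    have hfree : Module.Free (FN M₁) (FN (M₁ * q)) := Module.Free.of_divisionRing _ _
    have hN : Algebra.norm (FN M₁) (GB.wq M₁ q z) ≠ 0 := Algebra.norm_ne_zero_iff.2 hw
    rw [nmF_eq hq hqM z hz0, P.ord_mul ((map_ne_zero (alp M₁ q)).2 hN) (inv_ne_zero hw), P.ord_inv]
    refine dvd_add ?_ ((dvd_ord_wq n z hz P).neg_right)
    rw [Place.ord_restrictAlong (alp M₁ q) (GAL.FF.isIntegral_toRingHom _) P, GAL.FF.ord_norm _ hw]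
    exact Dvd.dvd.mul_left (Finset.dvd_sum fun w _ => dvd_ord_wq n z hz w) _

end Fermat.Agent.TOR.GBB
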