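import Fermat.Agent.TOR.GBB.ToricFormal
import Fermat.Agent.TOR.GBB.OrdNm
import Fermat.Agent.TOR.GoalBFree
import Fermat.Agent.TOR.GB.Norm
import Fermat.Agent.TOR.GB.Contract
import Fermat.Agent.GAL.Mod.Kum

/-!
# TOR / GBB / Main : GOAL B (geometric contract of S35) at level `M₁ q` from the concrete toric key
lemma `GB.KL2C M₁ q`.
-/

set_option autoImplicit false

open ModularCurve AlgebraicCurve

noncomputable section

namespace Fermat.Agent.TOR.GBB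

open Fermat.Agent.S24 Fermat.Agent.GAL Fermat.Agent.GR Fermat.Agent.GR.CB Fermat.Agent.TOR.GB

/-- `(σ - U_q)` on units -/
def yy1 (q : ℕ) [NeZero q] (σ : GQ) (u : UU) : UU := galU σ u * (nmU q u)⁻¹

/-- `(σ U_q - q)(σ - U_q)` on units -/
def yy2 (q : ℕ) [NeZero q] (σ : GQ) (u : UU) : UU :=
  galU σ (nmU q (yy1 q σ u)) * ((yy1 q σ u) ^ q)⁻¹

/-- `(σ² - q²)(σ U_q - q)(σ - U_q)` on units -/
def yy3 (q : ℕ) [NeZero q] (σ : GQ) (u : UU) : UU :=
  galU σ (galU σ (yy2 q σ u)) * ((yy2 q σ u) ^ (q ^ 2))⁻¹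

theorem yy1_pow (q : ℕ) [NeZero q] (σ : GQ) (u : UU) (n : ℕ) :
    yy1 q σ (u ^ n) = yy1 q σ u ^ n := by
  simp only [yy1, map_pow, mul_pow, inv_pow]

theorem yy2_pow (q : ℕ) [NeZero q] (σ : GQ) (u : UU) (n : ℕ) :
    yy2 q σ (u ^ n) = yy2 q σ u ^ n := by
  simp only [yy2, yy1_pow, map_pow, mul_pow, inv_pow, ← pow_mul, mul_comm]

theorem yy3_pow (q : ℕ) [NeZero q] (σ : GQ) (u : UU) (n : ℕ) :
    yy3 q σ (u ^ n) = yy3 q σ u ^ n := by
  simp only [yy3, yy2_pow, map_pow, mul_pow, inv_pow, ← pow_mul, mul_comm]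

theorem coe_nmU (q : ℕ) [NeZero q] (u : UU) :
    ((nmU q u : UU) : LaurentSeries Qb) = NmL Qb q (u : LaurentSeries Qb) := rfl

theorem coe_yy1 (q : ℕ) [NeZero q] (σ : GQ) (u : UU) :
    ((yy1 q σ u : UU) : LaurentSeries Qb)
      = galS σ (u : LaurentSeries Qb) / NmL Qb q (u : LaurentSeries Qb) := by
  rw [yy1, Units.val_mul, Units.val_inv_eq_inv_val, coe_galU, coe_nmU, div_eq_mul_inv]

theorem coe_yy2 (q : ℕ) [NeZero q] (σ : GQ) (u : UU) :
    ((yy2 q σ u : UU) : LaurentSeries Qb)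
      = galS σ (NmL Qb q (yy1 q σ u : LaurentSeries Qb)) / (yy1 q σ u : LaurentSeries Qb) ^ q := by
  rw [yy2, Units.val_mul, Units.val_inv_eq_inv_val, coe_galU, coe_nmU, div_eq_mul_inv,
    Units.val_pow_eq_pow_val]

theorem coe_yy3 (q : ℕ) [NeZero q] (σ : GQ) (u : UU) :
    ((yy3 q σ u : UU) : LaurentSeries Qb)
      = galS σ (galS σ (yy2 q σ u : LaurentSeries Qb)) / (yy2 q σ u : LaurentSeries Qb) ^ (q ^ 2) := by
  rw [yy3, Units.val_mul, Units.val_inv_eq_inv_val, coe_galU, coe_galU, div_eq_mul_inv,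
    Units.val_pow_eq_pow_val]

variable {M₁ q : ℕ} [NeZero M₁] [NeZero q]

/-- the eigen-free relation -/
theorem rel_of_KL2C (hq : q.Prime) (hqM : ¬ q ∣ M₁) (hK : KL2C M₁ q) {n : ℕ} (hn : n ≠ 0)
    (hqn : ¬ q ∣ n) {u : UU} (hu : IsKum Qb (M₁ * q) n (u : LaurentSeries Qb))
    {A : ValuationSubring Qb} (hA : A.LiesOverPrime q) {σ : GQ} (hs : A.IsFrobeniusAt σ q) :
    yy3 q σ u ∈ FLU (M₁ * q) := by
  obtain ⟨hu0, hf, hord⟩ := hu
  set f : FN (M₁ * q) := ⟨(u : LaurentSeries Qb) ^ n, hf⟩ with hfdef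
  have hfc : (f : LaurentSeries Qb) = ((u ^ n : UU) : LaurentSeries Qb) := by
    rw [Units.val_pow_eq_pow_val]
  have hf0' : (f : LaurentSeries Qb) ≠ 0 := by rw [hfc]; exact Units.ne_zero _
  have hf0 : f ≠ 0 := fun h => hf0' (by rw [h]; rfl)
  have hw0 : wq M₁ q f ≠ 0 := (map_ne_zero_iff _ (wq M₁ q).injective).mpr hf0
  have hw0' : ((wq M₁ q f : FN (M₁ * q)) : LaurentSeries Qb) ≠ 0 :=
    fun h => hw0 (Subtype.ext h)
  obtain ⟨c1, hc1, φ1, hφ1, h1⟩ := exists_hasRed_C_mul_of_mem_FL A (M₁ * q) f.2 hf0'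
  obtain ⟨c2, hc2, φ2, hφ2, h2⟩ := exists_hasRed_C_mul_of_mem_FL A (M₁ * q) (wq M₁ q f).2 hw0'
  obtain ⟨b, hb, hb1, hb2⟩ := toric_formal hq hA hs hc1 hc2 h1 hφ1 h2 hφ2
  set G1 : FN (M₁ * q) := galF (M₁ * q) σ f / nmF hq hqM f with hG1
  set G2 : FN (M₁ * q) := galF (M₁ * q) σ (nmF hq hqM G1) / G1 ^ q with hG2
  set W : FN (M₁ * q) := algebraMap Kb (FN (M₁ * q)) b * G2 with hW
  -- coercions
  have hG1c : (G1 : LaurentSeries Qb) = ((yy1 q σ (u ^ n) : UU) : LaurentSeries Qb) := by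
    rw [coe_yy1, ← hfc]; rfl
  have hG1c' : (G1 : LaurentSeries Qb)
      = galS σ (f : LaurentSeries Qb) / NmL Qb q (f : LaurentSeries Qb) := rfl
  have hG10' : (G1 : LaurentSeries Qb) ≠ 0 := by rw [hG1c]; exact Units.ne_zero _
  have hG10 : G1 ≠ 0 := fun h => hG10' (by rw [h]; rfl)
  have hG2c : (G2 : LaurentSeries Qb) = ((yy2 q σ (u ^ n) : UU) : LaurentSeries Qb) := by
    rw [coe_yy2, ← hG1c]; rfl
  have hG2c' : (G2 : LaurentSeries Qb)
      = galS σ (NmL Qb q (G1 : LaurentSeries Qb)) / (G1 : LaurentSeries Qb) ^ q := rfl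
  have hG20' : (G2 : LaurentSeries Qb) ≠ 0 := by rw [hG2c]; exact Units.ne_zero _
  have hG20 : G2 ≠ 0 := fun h => hG20' (by rw [h]; rfl)
  have hwG1 : ((wq M₁ q G1 : FN (M₁ * q)) : LaurentSeries Qb)
      = galS σ ((wq M₁ q f : FN (M₁ * q)) : LaurentSeries Qb) * (f : LaurentSeries Qb)
        / (qExpand Qb q ((wq M₁ q f : FN (M₁ * q)) : LaurentSeries Qb)
            * qExpand Qb q (NmL Qb q (f : LaurentSeries Qb))) := by
    rw [hG1, map_div₀, wq_galF hq hqM]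
    show galS σ ((wq M₁ q f : FN (M₁ * q)) : LaurentSeries Qb)
      / ((wq M₁ q (nmF hq hqM f) : FN (M₁ * q)) : LaurentSeries Qb) = _
    rw [coe_wq_nmF hq hqM f hf0, map_mul, div_div_eq_mul_div]
  have hwG2 : ((wq M₁ q G2 : FN (M₁ * q)) : LaurentSeries Qb)
      = galS σ (qExpand Qb q ((wq M₁ q G1 : FN (M₁ * q)) : LaurentSeries Qb)
          * qExpand Qb q (NmL Qb q (G1 : LaurentSeries Qb)) / (G1 : LaurentSeries Qb))
        / ((wq M₁ q G1 : FN (M₁ * q)) : LaurentSeries Qb) ^ q := by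
    rw [hG2, map_div₀, wq_galF hq hqM, map_pow]
    show galS σ ((wq M₁ q (nmF hq hqM G1) : FN (M₁ * q)) : LaurentSeries Qb)
      / ((wq M₁ q G1 : FN (M₁ * q)) : LaurentSeries Qb) ^ q = _
    rw [coe_wq_nmF hq hqM G1 hG10, map_mul]
  have hWc : (W : LaurentSeries Qb) = HahnSeries.C b * (G2 : LaurentSeries Qb) := by
    rw [C_eq_algebraMap]; rfl
  have hwWc : ((wq M₁ q W : FN (M₁ * q)) : LaurentSeries Qb)
      = HahnSeries.C b * ((wq M₁ q G2 : FN (M₁ * q)) : LaurentSeries Qb) := by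
    rw [hW, map_mul, AlgEquiv.commutes, C_eq_algebraMap]; rfl
  have hW1 : HasRed A (W : LaurentSeries Qb) 1 := by
    rw [hWc, hG2c', hG1c']; exact hb1
  have hW2 : HasRed A ((wq M₁ q W : FN (M₁ * q)) : LaurentSeries Qb) 1 := by
    rw [hwWc, hwG2, hwG1, hG1c']; exact hb2
  -- divisibility of the divisor
  have hD1 : ∀ P : Place Kb (FN (M₁ * q)), (n : ℤ) ∣ P.ord G1 := by
    intro P
    rw [hG1, div_eq_mul_inv, P.ord_mul ((map_ne_zero_iff _ (galF (M₁ * q) σ).injective).mpr hf0)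
      (inv_ne_zero (fun h => hG10 (by rw [hG1, h, div_zero]))), P.ord_inv]
    exact dvd_add (dvd_ord_galF _ σ n f hord P) ((dvd_ord_nmF hq hqM n f hord P).neg_right)
  have hD2 : ∀ P : Place Kb (FN (M₁ * q)), (n : ℤ) ∣ P.ord G2 := by
    intro P
    have hne : galF (M₁ * q) σ (nmF hq hqM G1) ≠ 0 := fun h => hG20 (by rw [hG2, h, zero_div])
    rw [hG2, div_eq_mul_inv, P.ord_mul hne (inv_ne_zero (pow_ne_zero _ hG10)), P.ord_inv,
      ← zpow_natCast, P.ord_zpow]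
    exact dvd_add (dvd_ord_galF _ σ n _ (dvd_ord_nmF hq hqM n G1 hD1) P)
      ((Dvd.dvd.mul_left (hD1 P) _).neg_right)
  have hDW : ∀ P : Place Qb (FL Qb (M₁ * q)), (n : ℤ) ∣ P.ord W := by
    intro P
    rw [hW, P.ord_mul ((map_ne_zero _).mpr hb) hG20, Fermat.Agent.S24.FF.ord_algebraMap, zero_add]
    exact hD2 P
  obtain ⟨y, hy⟩ := hK n hn hqn A hA (σ * σ) (q ^ 2) (Or.inr ⟨σ, hs, rfl, rfl⟩) W hW1 hW2 hDW
  -- conclusion
  have hyc : (y : LaurentSeries Qb) ^ n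
      = galS σ (galS σ (W : LaurentSeries Qb)) / (W : LaurentSeries Qb) ^ (q ^ 2) := by
    have := congrArg (fun z : FN (M₁ * q) => (z : LaurentSeries Qb)) hy
    rw [← galS_mul]
    exact this
  have hCb : (HahnSeries.C b : LaurentSeries Qb) ≠ 0 := by
    rw [C_eq_algebraMap]; exact (map_ne_zero _).mpr hb
  have hCb' : (HahnSeries.C (σ (σ b)) : LaurentSeries Qb) ≠ 0 := by
    rw [C_eq_algebraMap]
    exact (map_ne_zero _).mpr ((map_ne_zero σ).mpr ((map_ne_zero σ).mpr hb))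
  have hSS : galS σ (galS σ (G2 : LaurentSeries Qb)) ≠ 0 :=
    (map_ne_zero _).mpr ((map_ne_zero _).mpr hG20')
  have h3 : ((yy3 q σ u : UU) : LaurentSeries Qb) ^ n
      = galS σ (galS σ (G2 : LaurentSeries Qb)) / (G2 : LaurentSeries Qb) ^ (q ^ 2) := by
    rw [← Units.val_pow_eq_pow_val, ← yy3_pow, coe_yy3, ← hG2c]
  have hx : (((yy3 q σ u : UU) : LaurentSeries Qb) / (y : LaurentSeries Qb)) ^ n
      = HahnSeries.C (b ^ (q ^ 2) / σ (σ b)) := by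
    rw [div_pow, h3, hyc, hWc, map_mul, map_mul, galS_C, galS_C, mul_pow, map_div₀, map_pow]
    field_simp
  have hy0 : (y : LaurentSeries Qb) ≠ 0 := by
    intro h
    rw [h, zero_pow hn, hWc, map_mul, map_mul, galS_C, galS_C] at hyc
    exact (div_ne_zero (mul_ne_zero hCb' hSS) (pow_ne_zero _ (mul_ne_zero hCb hG20'))) hyc.symm
  have hmem := mem_FL_of_pow_eq_C (M₁ * q) hn hx
  have : ((yy3 q σ u : UU) : LaurentSeries Qb)
      = ((yy3 q σ u : UU) : LaurentSeries Qb) / (y : LaurentSeries Qb) * (y : LaurentSeries Qb) := by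
    rw [div_mul_cancel₀ _ hy0]
  rw [mem_FLU, this]
  exact mul_mem hmem y.2

/-- **GOAL B** at level `M₁ q` from the concrete toric key lemma. -/
theorem goalB_of_KL2C (hq : q.Prime) (hqM : ¬ q ∣ M₁) (hK : KL2C M₁ q) : GoalB (M₁ * q) q := by
  intro n hn hqn a ha u hu hU A hA σ hs
  refine quarticOp_cls_eq_zero (fun f hf => NmL_mem_FL hq hqM hf) σ a ha u hU ?_
  exact rel_of_KL2C hq hqM hK hn hqn hu hA hs

end Fermat.Agent.TOR.GBB
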